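/-
Weight two cusp forms of very small level vanish, by the Sturm bound.
-/
import Mathlib.NumberTheory.ModularForms.CuspFormSubmodule
import Fermat.Prelude.Thm_ModularForm_sturm_bound_Gamma0
import Fermat.Prelude.Thm_CongruenceSubgroup_one_mem_strictPeriods_Gamma0
import Fermat.Agent.Gamma0Count.Index

set_option autoImplicit false

open UpperHalfPlane CongruenceSubgroup

namespace Fermat.Agent.Quick

/-- If twice the index is less than twelve, there is no nonzero cusp form of weight two. -/
theorem cuspForm_eq_zero_of_index_le {N : ℕ} [NeZero N] (hN : (Gamma0 N).index ≤ 5)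
    (f : CuspForm (Gamma0 N) 2) : f = 0 := by
  refine CuspForm.toModularFormₗ_injective ?_
  rw [map_zero]
  refine ModularForm.sturm_bound_Gamma0 N _ fun n hn => ?_
  have hn0 : n = 0 := by
    have h : ((2 : ℤ) * (Gamma0 N).index).toNat / 12 = 0 := by omega
    omega
  subst hn0
  exact CuspFormClass.qExpansion_coeff_zero f one_pos (one_mem_strictPeriods_Gamma0 N)

theorem dedekindPsi_two : ModularCurve.dedekindPsi 2 = 3 := by
  unfold ModularCurve.dedekindPsi
  rw [Finset.sum_filter, Nat.Prime.divisors Nat.prime_two]
  simp [Nat.prime_two.squarefree]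

end Fermat.Agent.Quick
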